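/-
S24 analytic part, basic definitions.  Owner helper144.
-/
import Fermat.Agent.S24.Defs

set_option autoImplicit false

namespace Fermat.Agent.S24

open UpperHalfPlane ModularForm EisensteinSeries Complex ModularCurve
open scoped MatrixGroups Real Manifold

/-- A fixed embedding `ℚ̄ → ℂ`. -/
noncomputable def iota : Kbar →+* ℂ :=
  letI inst : Algebra ℚ (AlgebraicClosure ℚ) := AlgebraicClosure.instAlgebra ℚ
  haveI : @Algebra.IsAlgebraic ℚ (AlgebraicClosure ℚ) _ _ inst := AlgebraicClosure.isAlgebraic ℚ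
  ((IsAlgClosed.lift : AlgebraicClosure ℚ →ₐ[ℚ] ℂ) : AlgebraicClosure ℚ →+* ℂ)

/-- `ℂ` as a `ℚ̄`-algebra through `iota`. -/
noncomputable instance instAlgebraKbarComplex : Algebra Kbar ℂ := iota.toAlgebra

theorem algebraMap_Kbar_complex (c : Kbar) : algebraMap Kbar ℂ c = iota c := rfl

theorem iota_injective : Function.Injective iota := iota.injective

/-- The analytic `j`-function `E₄³ / Δ` on the upper half plane. -/
noncomputable def jfun (τ : ℍ) : ℂ := E₄ τ ^ 3 / discriminant τ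

/-- `f` has the expansion `s` in the parameter `t = exp (2 π i τ / N)`, with coefficients in `ℚ̄`. -/
def HasTExp (N : ℕ) (f : ℍ → ℂ) (s : LaurentSeries Kbar) : Prop :=
  ∀ τ : ℍ, HasSum (fun n : ℤ => iota (s.coeff n) * Function.Periodic.qParam N τ ^ n) (f τ)

/-- `g ∈ GL₂(ℝ)` is an integral matrix of positive determinant dividing `N`. -/
def IsLevelMat (N : ℕ) (g : GL (Fin 2) ℝ) : Prop :=
  ∃ α : Matrix (Fin 2) (Fin 2) ℤ, 0 < α.det ∧ α.det ∣ (N : ℤ) ∧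
    (g : Matrix (Fin 2) (Fin 2) ℝ) = α.map (Int.cast : ℤ → ℝ)

theorem IsLevelMat.mul_SL {N : ℕ} {g : GL (Fin 2) ℝ} (hg : IsLevelMat N g) (γ : SL(2, ℤ)) :
    IsLevelMat N (g * (γ : GL (Fin 2) ℝ)) := by
  obtain ⟨α, h1, h2, h3⟩ := hg
  refine ⟨α * γ.1, by simpa using h1, by simpa using h2, ?_⟩
  rw [Units.val_mul, h3]
  ext i j
  simp [Matrix.mul_apply, Matrix.map_apply]

/-- The functions `j ∘ α`, `α` an integral matrix of positive determinant dividing `N`. -/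
def gens (N : ℕ) : Set (ℍ → ℂ) :=
  {f | ∃ g : GL (Fin 2) ℝ, IsLevelMat N g ∧ f = fun τ => jfun (g • τ)}

/-- The `ℚ̄`-algebra of functions on `ℍ` generated by the `j ∘ α`. -/
noncomputable def AL (N : ℕ) : Subalgebra Kbar (ℍ → ℂ) := Algebra.adjoin Kbar (gens N)

theorem comp_smul_mem_AL {N : ℕ} {f : ℍ → ℂ} (hf : f ∈ AL N) (γ : SL(2, ℤ)) :
    (fun τ => f (γ • τ)) ∈ AL N := by
  induction hf using Algebra.adjoin_induction with
  | mem f hf =>
    obtain ⟨g, hg, rfl⟩ := hf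
    refine Algebra.subset_adjoin ⟨g * (γ : GL (Fin 2) ℝ), hg.mul_SL γ, ?_⟩
    funext τ
    rw [mul_smul]
    rfl
  | algebraMap c => exact (AL N).algebraMap_mem c
  | add f g _ _ hf hg => exact (AL N).add_mem hf hg
  | mul f g _ _ hf hg => exact (AL N).mul_mem hf hg

/-- `SL(2,ℤ)` acts on `AL N` by `(γ • f) τ = f (γ⁻¹ • τ)`. -/
noncomputable instance instActionAL (N : ℕ) : MulSemiringAction SL(2, ℤ) (AL N) where
  smul γ f := ⟨fun τ => f.1 (γ⁻¹ • τ), comp_smul_mem_AL f.2 γ⁻¹⟩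
  one_smul f := by
    apply Subtype.ext
    funext τ
    show f.1 ((1 : SL(2, ℤ))⁻¹ • τ) = f.1 τ
    rw [inv_one, one_smul]
  mul_smul γ γ' f := by
    apply Subtype.ext
    funext τ
    show f.1 ((γ * γ')⁻¹ • τ) = f.1 (γ'⁻¹ • γ⁻¹ • τ)
    rw [mul_inv_rev, mul_smul]
  smul_zero γ := rfl
  smul_add γ f g := rfl
  smul_one γ := rfl
  smul_mul γ f g := rfl

theorem smul_AL_apply {N : ℕ} (γ : SL(2, ℤ)) (f : AL N) (τ : ℍ) :
    (γ • f).1 τ = f.1 (γ⁻¹ • τ) := rfl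

theorem smul_AL_algebraMap {N : ℕ} (γ : SL(2, ℤ)) (c : Kbar) :
    γ • algebraMap Kbar (AL N) c = algebraMap Kbar (AL N) c := rfl

/-- `j(dτ)` as a function on `ℍ`. -/
noncomputable def dilMat (d : ℕ) [NeZero d] : GL (Fin 2) ℝ :=
  Matrix.GeneralLinearGroup.mkOfDetNeZero !![(d : ℝ), 0; 0, 1]
    (by simpa using NeZero.ne d)

theorem isLevelMat_dilMat {N d : ℕ} [NeZero d] (hd : d ∣ N) : IsLevelMat N (dilMat d) := by
  refine ⟨!![(d : ℤ), 0; 0, 1], ?_, ?_, ?_⟩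
  · simpa using Nat.pos_of_ne_zero (NeZero.ne d)
  · simpa using Int.natCast_dvd_natCast.mpr hd
  · ext i j
    fin_cases i <;> fin_cases j <;> simp [dilMat]

/-- `j(dτ)` as an element of `AL N`, for `d ∣ N`. -/
noncomputable def jd (N d : ℕ) [NeZero d] (hd : d ∣ N) : AL N :=
  ⟨fun τ => jfun (dilMat d • τ), Algebra.subset_adjoin ⟨dilMat d, isLevelMat_dilMat hd, rfl⟩⟩

/-- The elliptic point `ρ = e^{2πi/3}`, fixed by `S * T`. -/
noncomputable def rho : ℍ :=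
  ⟨-1 / 2 + (Real.sqrt 3 / 2 : ℝ) * Complex.I, by simp⟩

/-- Order of vanishing at `τ₀ ∈ ℍ` of a function on `ℍ`. -/
noncomputable def ordAt (τ₀ : ℍ) (f : ℍ → ℂ) : ℕ∞ :=
  analyticOrderAt (fun z : ℂ => f (ofComplex z)) (τ₀ : ℂ)

end Fermat.Agent.S24
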