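/-
S24-J1 (task 91, owner helper49): the analytic `j` function is holomorphic and `SL(2,ℤ)`-invariant.
-/
import Fermat.Agent.S24.Analytic.Defs

set_option autoImplicit false

namespace Fermat.Agent.S24

open UpperHalfPlane ModularForm EisensteinSeries Complex ModularCurve
open scoped MatrixGroups Real Manifold

theorem mdiff_jfun : MDiff jfun := by
  have h4 : MDiff (fun τ : ℍ => E₄ τ ^ 3) := (E₄.holo').pow 3
  exact h4.div CuspForm.discriminant.holo' discriminant_ne_zero

theorem jfun_smul (γ : SL(2, ℤ)) (τ : ℍ) : jfun (γ • τ) = jfun τ := by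
  have h4 : E₄ (γ • τ) = (denom γ τ) ^ (4 : ℤ) * E₄ τ :=
    SlashInvariantForm.slash_action_eqn'' (Γ := 𝒮ℒ) E₄ (γ := Matrix.SpecialLinearGroup.mapGL ℝ γ) (MonoidHom.mem_range.mpr ⟨γ, rfl⟩) τ
  have h12 : CuspForm.discriminant (γ • τ) = (denom γ τ) ^ (12 : ℤ) * CuspForm.discriminant τ :=
    SlashInvariantForm.slash_action_eqn'' (Γ := 𝒮ℒ) CuspForm.discriminant (γ := Matrix.SpecialLinearGroup.mapGL ℝ γ) (MonoidHom.mem_range.mpr ⟨γ, rfl⟩) τ
  have h12' : discriminant (γ • τ) = (denom γ τ) ^ (12 : ℤ) * discriminant τ := h12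
  have hd : denom γ τ ≠ 0 := denom_ne_zero _ _
  have hΔ : discriminant τ ≠ 0 := discriminant_ne_zero τ
  unfold jfun
  rw [h4, h12']
  generalize denom γ τ = d at *
  generalize discriminant τ = D at *
  generalize E₄ τ = e at *
  have e4 : d ^ (4 : ℤ) = d ^ 4 := by norm_cast
  have e12 : d ^ (12 : ℤ) = d ^ 12 := by norm_cast
  rw [e4, e12]
  field_simp
theorem jfun_eq (τ : ℍ) : jfun τ - 1728 = E₆ τ ^ 2 / discriminant τ := by
  have hΔ : discriminant τ ≠ 0 := discriminant_ne_zero τ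
  have h := discriminant_eq_E₄_cube_sub_E₆_sq τ
  unfold jfun
  rw [eq_div_iff hΔ, sub_mul, div_mul_cancel₀ _ hΔ]
  linear_combination (-1728 : ℂ) * h

theorem mdiff_jfun_comp (g : GL (Fin 2) ℝ) (hg : 0 < g.det.val) :
    MDiff (fun τ => jfun (g • τ)) :=
  mdiff_jfun.comp (mdifferentiable_smul hg)

theorem IsLevelMat.det_pos {N : ℕ} {g : GL (Fin 2) ℝ} (hg : IsLevelMat N g) : 0 < g.det.val := by
  obtain ⟨α, h1, -, h3⟩ := hg
  rw [Matrix.GeneralLinearGroup.val_det_apply, h3]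
  have : (α.map (Int.cast : ℤ → ℝ)).det = ((α.det : ℤ) : ℝ) := by
    have := (Int.castRingHom ℝ).map_det α
    simpa [RingHom.mapMatrix_apply] using this.symm
  rw [this]
  exact_mod_cast h1

theorem mdiff_of_mem_AL {N : ℕ} {f : ℍ → ℂ} (hf : f ∈ AL N) : MDiff f := by
  induction hf using Algebra.adjoin_induction with
  | mem f hf =>
    obtain ⟨g, hg, rfl⟩ := hf
    exact mdiff_jfun_comp g hg.det_pos
  | algebraMap c => exact mdifferentiable_const
  | add f g _ _ hf hg => exact hf.add hg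
  | mul f g _ _ hf hg => exact hf.mul hg

end Fermat.Agent.S24
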