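/-
S24-J2: the `q`-expansion of the analytic `j` equals the formal Prelude series `jq`.
Owner helper90.  The work is done in the shared file `Fermat/Agent/Lib/JExpansion.lean`.
-/
import Fermat.Agent.S24.Analytic.Defs
import Fermat.Agent.Lib.JExpansion

set_option autoImplicit false

namespace Fermat.Agent.S24

open UpperHalfPlane ModularForm EisensteinSeries Complex ModularCurve

theorem hasSum_jfun (τ : ℍ) :
    HasSum (fun n : ℤ => ((ModularCurve.jq.coeff n : ℚ) : ℂ) * Function.Periodic.qParam 1 τ ^ n)
      (jfun τ) :=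
  Lib.JExpansion.hasSum_j τ

theorem iota_algebraMap_rat (r : ℚ) : iota (algebraMap ℚ Kbar r) = (r : ℂ) := by
  rw [eq_ratCast, map_ratCast]

theorem hasTExp_jfun : HasTExp 1 jfun (Jser 1) := by
  intro τ
  refine (hasSum_jfun τ).congr_fun fun n => ?_
  rw [Jser, qExpand_one_apply, coeffEmb_coeff, iota_algebraMap_rat, Nat.cast_one]

end Fermat.Agent.S24
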