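/-
S24 analytic part, task J4: local orders of the analytic `j`-function.  Owner helper117.

Route: the first Rankin-Cohen bracket `2 E₄ D E₆ - 3 E₆ D E₄` is a cusp form of weight 12 and
level one, hence a multiple of the discriminant; this gives `D j * Δ = c * E₄ ^ 2 * E₆` with
`c ≠ 0`, and the orders follow from `ord (D f) + 1 = ord (f - f τ)`.

Auxiliary statements live in the namespace `Fermat.Agent.S24.JOrd`.
-/
import Fermat.Agent.S24.Analytic.Defs

set_option autoImplicit false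

namespace Fermat.Agent.S24

open UpperHalfPlane ModularForm EisensteinSeries Complex ModularCurve
open scoped MatrixGroups Real Manifold CongruenceSubgroup Topology
open Derivative Filter

/-! ### Elliptic fixed points -/

theorem S_smul_I : ModularGroup.S • UpperHalfPlane.I = UpperHalfPlane.I := by
  rw [UpperHalfPlane.modular_S_smul]
  ext
  simp

namespace JOrd

theorem coe_rho : (rho : ℂ) = -1 / 2 + (Real.sqrt 3 / 2 : ℝ) * Complex.I := rfl

theorem rho_sq : (rho : ℂ) ^ 2 + (rho : ℂ) + 1 = 0 := by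
  have h3 : ((Real.sqrt 3 : ℝ) : ℂ) ^ 2 = 3 := by
    rw [← Complex.ofReal_pow, Real.sq_sqrt (by norm_num)]; norm_num
  rw [coe_rho]
  push_cast
  ring_nf
  rw [h3, Complex.I_sq]
  ring

end JOrd

open JOrd

theorem ST_smul_rho : (ModularGroup.S * ModularGroup.T) • rho = rho := by
  rw [mul_smul, UpperHalfPlane.modular_T_smul, UpperHalfPlane.modular_S_smul]
  ext
  simp only [UpperHalfPlane.coe_vadd]
  have h := rho_sq
  have h1 : (1 : ℂ) + (rho : ℂ) ≠ 0 := by
    intro h0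
    have : (rho : ℂ) = -1 := by linear_combination h0
    rw [this] at h
    norm_num at h
  show (-(((1 : ℝ) : ℂ) + (rho : ℂ)))⁻¹ = (rho : ℂ)
  rw [Complex.ofReal_one, inv_eq_iff_eq_inv, eq_comm, inv_eq_iff_eq_inv, eq_comm]
  field_simp
  linear_combination (-1 : ℂ) * h

namespace JOrd

/-! ### Level one forms at the fixed points -/

theorem levelOne_apply_smul {k : ℤ} (f : ModularForm 𝒮ℒ k) (γ : SL(2, ℤ)) (z : ℍ) :
    f (γ • z) = denom γ z ^ k * f z := by
  have : SlashInvariantFormClass (ModularForm 𝒮ℒ k) Γ(1) k :=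
    CongruenceSubgroup.Gamma_one_coe_eq_SL ▸ inferInstance
  exact SlashInvariantForm.slash_action_eqn_SL'' f (CongruenceSubgroup.mem_Gamma_one γ) z

theorem levelOne_slash {k : ℤ} (f : ModularForm 𝒮ℒ k) (γ : SL(2, ℤ)) :
    (f : ℍ → ℂ) ∣[k] γ = f :=
  SlashInvariantFormClass.slash_action_eq f _ ⟨γ, rfl⟩

theorem E₆_I : E₆ UpperHalfPlane.I = 0 := by
  have h := levelOne_apply_smul E₆ ModularGroup.S UpperHalfPlane.I
  rw [S_smul_I, ModularGroup.denom_S] at h
  have h6 : ((UpperHalfPlane.I : ℍ) : ℂ) ^ (6 : ℤ) = -1 := by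
    rw [UpperHalfPlane.coe_I]
    have : (Complex.I) ^ (6 : ℤ) = Complex.I ^ (6 : ℕ) := by norm_cast
    rw [this, show (6 : ℕ) = 2 * 3 by norm_num, pow_mul, Complex.I_sq]
    norm_num
  rw [h6] at h
  have : (2 : ℂ) * E₆ UpperHalfPlane.I = 0 := by linear_combination h
  simpa using this

theorem denom_ST (z : ℍ) :
    denom (ModularGroup.S * ModularGroup.T : SL(2, ℤ)) z = (z : ℂ) + 1 := by
  simp only [denom]
  simp [-map_mul]

theorem E₄_rho : E₄ rho = 0 := by
  have h := levelOne_apply_smul E₄ (ModularGroup.S * ModularGroup.T) rho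
  rw [ST_smul_rho, denom_ST] at h
  have h4 : ((rho : ℂ) + 1) ^ (4 : ℤ) = - (rho : ℂ) - 1 := by
    have : ((rho : ℂ) + 1) ^ (4 : ℤ) = ((rho : ℂ) + 1) ^ (4 : ℕ) := by norm_cast
    rw [this]
    linear_combination (((rho : ℂ) + 1) * ((rho : ℂ) + 2)) * rho_sq
  rw [h4] at h
  have h1 : ((rho : ℂ) + 2) * E₄ rho = 0 := by linear_combination h
  rcases mul_eq_zero.mp h1 with h2 | h2
  · exfalso
    have h3 : (rho : ℂ) = -2 := by linear_combination h2
    have := rho_sq
    rw [h3] at this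
    norm_num at this
  · exact h2

/-! ### The normalised derivative of a level one form vanishes at the cusp -/

theorem hasDerivAt_qParam_one (z : ℂ) :
    HasDerivAt (Function.Periodic.qParam 1)
      (2 * π * Complex.I * Function.Periodic.qParam 1 z) z := by
  have h1 : HasDerivAt (fun w : ℂ => 2 * π * Complex.I * w / (1 : ℝ)) (2 * π * Complex.I) z := by
    have := ((hasDerivAt_id z).const_mul (2 * π * Complex.I)).div_const ((1 : ℝ) : ℂ)
    simpa using this
  have h2 := h1.cexp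
  have h3 : (fun w : ℂ => cexp (2 * π * Complex.I * w / (1 : ℝ))) =
      Function.Periodic.qParam 1 := by
    funext w
    rfl
  rw [h3] at h2
  have h4 : 2 * π * Complex.I * Function.Periodic.qParam 1 z =
      cexp (2 * π * Complex.I * z / (1 : ℝ)) * (2 * π * Complex.I) := by
    rw [mul_comm]
    rfl
  rw [h4]
  exact h2

theorem D_eq_q_mul_deriv_cuspFunction {k : ℤ} (f : ModularForm 𝒮ℒ k) (z : ℍ) :
    D f z = Function.Periodic.qParam 1 z *
      deriv (cuspFunction 1 f) (Function.Periodic.qParam 1 z) := by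
  have hev : (f ∘ ofComplex) =ᶠ[𝓝 (z : ℂ)]
      (cuspFunction 1 f) ∘ (Function.Periodic.qParam 1) := by
    filter_upwards [isOpen_upperHalfPlaneSet.mem_nhds z.im_pos] with w hw
    have := SlashInvariantFormClass.eq_cuspFunction f ⟨w, hw⟩ one_mem_strictPeriods_SL one_ne_zero
    simp only [Function.comp_apply, ofComplex_apply_of_im_pos hw]
    exact this.symm
  have hd : DifferentiableAt ℂ (cuspFunction 1 f) (Function.Periodic.qParam 1 z) :=
    ModularFormClass.differentiableAt_cuspFunction f one_pos one_mem_strictPeriods_SL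
      (Function.Periodic.norm_qParam_lt_one one_pos z.im_pos)
  have hc := hd.hasDerivAt.comp (z : ℂ) (hasDerivAt_qParam_one z)
  have hpi : (2 * π * Complex.I : ℂ) ≠ 0 := by
    simp [Real.pi_ne_zero]
  rw [normalizedDerivOfComplex, hev.deriv_eq, hc.deriv]
  field_simp

theorem isZeroAtImInfty_D {k : ℤ} (f : ModularForm 𝒮ℒ k) : IsZeroAtImInfty (D f) := by
  have ha : AnalyticAt ℂ (cuspFunction 1 f) 0 :=
    ModularFormClass.analyticAt_cuspFunction_zero f one_pos one_mem_strictPeriods_SL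
  have hc : ContinuousAt (deriv (cuspFunction 1 f)) 0 := ha.deriv.continuousAt
  have hq : Tendsto (fun τ : ℍ ↦ Function.Periodic.qParam 1 τ) atImInfty (𝓝 0) :=
    qParam_tendsto_atImInfty one_pos
  have h2 := hq.mul (hc.tendsto.comp hq)
  rw [zero_mul] at h2
  refine h2.congr ?_
  intro z
  exact (D_eq_q_mul_deriv_cuspFunction f z).symm

/-! ### The Rankin-Cohen bracket of `E₄` and `E₆` -/

theorem D_apply_smul {k : ℤ} (f : ModularForm 𝒮ℒ k) (γ : SL(2, ℤ)) (z : ℍ) :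
    D f (γ • z) = denom γ z ^ (k + 2) *
      (D f z + k * (2 * π * Complex.I)⁻¹ * (γ 1 0 / denom γ z) * f z) := by
  have h := congrFun (normalizedDerivOfComplex_SL_slash (k := k) (F := f)
    (ModularFormClass.holo f) (γ := γ)) z
  rw [levelOne_slash] at h
  simp only [Pi.sub_apply, ModularForm.SL_slash_apply] at h
  have hd : denom γ z ≠ 0 := denom_ne_zero γ z
  rw [zpow_neg] at h
  have hd2 : denom γ z ^ (k + 2) ≠ 0 := zpow_ne_zero _ hd
  field_simp at h ⊢
  linear_combination (-1 : ℂ) * h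

/-- The first Rankin-Cohen bracket of `E₄` and `E₆`. -/
noncomputable def rcB (z : ℍ) : ℂ := 2 * E₄ z * D E₆ z - 3 * E₆ z * D E₄ z

theorem rcB_slash (γ : SL(2, ℤ)) : rcB ∣[(12 : ℤ)] γ = rcB := by
  funext z
  rw [ModularForm.SL_slash_apply]
  have hd : denom γ z ≠ 0 := denom_ne_zero γ z
  simp only [rcB]
  rw [levelOne_apply_smul E₄, levelOne_apply_smul E₆, D_apply_smul E₄, D_apply_smul E₆]
  have e4 : denom γ z ^ (4 : ℤ) = denom γ z ^ (4 : ℕ) := by norm_cast
  have e6 : denom γ z ^ (6 : ℤ) = denom γ z ^ (6 : ℕ) := by norm_cast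
  have e42 : denom γ z ^ ((4 : ℤ) + 2) = denom γ z ^ (6 : ℕ) := by norm_cast
  have e62 : denom γ z ^ ((6 : ℤ) + 2) = denom γ z ^ (8 : ℕ) := by norm_cast
  have e12 : denom γ z ^ (-(12 : ℤ)) = (denom γ z ^ (12 : ℕ))⁻¹ := by
    rw [zpow_neg]; norm_cast
  rw [e4, e6, e42, e62, e12]
  field_simp
  push_cast
  ring

theorem mdiff_E₄ : MDiff (E₄ : ℍ → ℂ) := ModularFormClass.holo E₄

theorem mdiff_E₆ : MDiff (E₆ : ℍ → ℂ) := ModularFormClass.holo E₆

theorem rcB_mdiff : MDiff rcB := by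
  have hD4 := normalizedDerivOfComplex_mdifferentiable mdiff_E₄
  have hD6 := normalizedDerivOfComplex_mdifferentiable mdiff_E₆
  exact ((mdifferentiable_const.mul mdiff_E₄).mul hD6).sub
    ((mdifferentiable_const.mul mdiff_E₆).mul hD4)

theorem rcB_isZeroAtImInfty : IsZeroAtImInfty rcB := by
  have h4 : IsBoundedAtImInfty (E₄ : ℍ → ℂ) := ModularFormClass.bdd_at_infty E₄
  have h6 : IsBoundedAtImInfty (E₆ : ℍ → ℂ) := ModularFormClass.bdd_at_infty E₆
  have hD4 := isZeroAtImInfty_D E₄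
  have hD6 := isZeroAtImInfty_D E₆
  have a := (BoundedAtFilter.mul (const_boundedAtFilter _ (2 : ℂ)) h4).mul_zeroAtFilter hD6
  have b := (BoundedAtFilter.mul (const_boundedAtFilter _ (3 : ℂ)) h6).mul_zeroAtFilter hD4
  have c := a.add b.neg
  refine c.congr ?_
  intro z
  simp [rcB, sub_eq_add_neg]

/-- The bracket as a cusp form of weight 12. -/
noncomputable def rcCusp : CuspForm 𝒮ℒ 12 where
  toFun := rcB
  slash_action_eq' A hA := by
    obtain ⟨A, rfl⟩ := hA
    exact rcB_slash A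
  holo' := rcB_mdiff
  zero_at_cusps' hc := by
    rw [Subgroup.IsArithmetic.isCusp_iff_isCusp_SL2Z] at hc
    rw [OnePoint.isZeroAt_iff_forall_SL2Z hc]
    intro γ _
    rw [rcB_slash]
    exact rcB_isZeroAtImInfty

theorem exists_rcB_eq : ∃ c : ℂ, ∀ z : ℍ, rcB z = c * discriminant z := by
  obtain ⟨c, hc⟩ := CuspForm.exists_smul_discriminant_of_weight_eq_twelve rcCusp
  refine ⟨c, fun z => ?_⟩
  have := congrArg (fun f : CuspForm 𝒮ℒ 12 => f z) hc
  exact this.symm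

/-! ### The derivative of `j` -/

theorem mdiff_disc : MDiff (discriminant : ℍ → ℂ) := CuspForm.discriminant.holo'

theorem mdiff_jfun' : MDiff jfun := by
  have h4 := UpperHalfPlane.mdifferentiable_iff.mp mdiff_E₄
  have hd := UpperHalfPlane.mdifferentiable_iff.mp mdiff_disc
  rw [UpperHalfPlane.mdifferentiable_iff]
  exact (h4.pow 3).div hd (fun z _ => discriminant_ne_zero _)

theorem jfun_mul_disc (z : ℍ) : jfun z * discriminant z = E₄ z ^ 3 := by
  rw [jfun, div_mul_cancel₀ _ (discriminant_ne_zero z)]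

theorem jfun_sub_mul_disc (z : ℍ) : (jfun z - 1728) * discriminant z = E₆ z ^ 2 := by
  rw [sub_mul, jfun_mul_disc, discriminant_eq_E₄_cube_sub_E₆_sq]
  ring

theorem D_disc (z : ℍ) :
    1728 * D discriminant z = 3 * E₄ z ^ 2 * D E₄ z - 2 * E₆ z * D E₆ z := by
  have h4 := mdiff_E₄
  have h6 := mdiff_E₆
  have h : (1728 : ℂ) • (discriminant : ℍ → ℂ) = (E₄ : ℍ → ℂ) ^ 3 - (E₆ : ℍ → ℂ) ^ 2 := by
    funext w
    simp only [Pi.smul_apply, Pi.sub_apply, Pi.pow_apply, smul_eq_mul]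
    rw [discriminant_eq_E₄_cube_sub_E₆_sq]
    ring
  have h2 := congrArg (fun F => D F z) h
  beta_reduce at h2
  rw [normalizedDerivOfComplex_smul _ _ mdiff_disc,
    normalizedDerivOfComplex_sub _ _ (h4.pow 3) (h6.pow 2),
    normalizedDerivOfComplex_pow _ _ h4, normalizedDerivOfComplex_pow _ _ h6] at h2
  simpa using h2

theorem D_jfun_mul (z : ℍ) : D jfun z * discriminant z + jfun z * D discriminant z =
    3 * E₄ z ^ 2 * D E₄ z := by
  have h : jfun * (discriminant : ℍ → ℂ) = (E₄ : ℍ → ℂ) ^ 3 := by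
    funext w
    exact jfun_mul_disc w
  have h2 := congrArg (fun F => D F z) h
  beta_reduce at h2
  rw [normalizedDerivOfComplex_mul _ _ mdiff_jfun' mdiff_disc,
    normalizedDerivOfComplex_pow _ _ mdiff_E₄] at h2
  simpa using h2

theorem D_jfun_eq (z : ℍ) :
    1728 * D jfun z * discriminant z ^ 2 = E₄ z ^ 2 * E₆ z * rcB z := by
  have h1 := D_jfun_mul z
  have h2 := D_disc z
  have h3 := jfun_mul_disc z
  have h4 := discriminant_eq_E₄_cube_sub_E₆_sq z
  have h5 : 1728 * discriminant z = E₄ z ^ 3 - E₆ z ^ 2 := by rw [h4]; ring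
  rw [rcB]
  linear_combination (1728 * discriminant z) * h1 - (jfun z * discriminant z) * h2
    - (3 * E₄ z ^ 2 * D E₄ z - 2 * E₆ z * D E₆ z) * h3 + (3 * E₄ z ^ 2 * D E₄ z) * h5

theorem exists_D_jfun_eq :
    ∃ c : ℂ, ∀ z : ℍ, D jfun z * discriminant z = c * (E₄ z ^ 2 * E₆ z) := by
  obtain ⟨c, hc⟩ := exists_rcB_eq
  refine ⟨c / 1728, fun z => ?_⟩
  have h := D_jfun_eq z
  rw [hc] at h
  have hd := discriminant_ne_zero z
  apply mul_right_cancel₀ hd
  linear_combination (1 / 1728 : ℂ) * h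

/-! ### Calculus of `ordAt` -/

theorem analyticOnNhd_comp_ofComplex {f : ℍ → ℂ} (hf : MDiff f) :
    AnalyticOnNhd ℂ (fun z : ℂ => f (ofComplex z)) upperHalfPlaneSet :=
  (UpperHalfPlane.mdifferentiable_iff.mp hf).analyticOnNhd isOpen_upperHalfPlaneSet

theorem analyticAt_comp_ofComplex {f : ℍ → ℂ} (hf : MDiff f) (τ : ℍ) :
    AnalyticAt ℂ (fun z : ℂ => f (ofComplex z)) τ :=
  analyticOnNhd_comp_ofComplex hf τ τ.im_pos

theorem ordAt_mul {f g : ℍ → ℂ} (hf : MDiff f) (hg : MDiff g) (τ : ℍ) :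
    ordAt τ (fun z => f z * g z) = ordAt τ f + ordAt τ g :=
  analyticOrderAt_mul (analyticAt_comp_ofComplex hf τ) (analyticAt_comp_ofComplex hg τ)

theorem ordAt_pow {f : ℍ → ℂ} (hf : MDiff f) (n : ℕ) (τ : ℍ) :
    ordAt τ (fun z => f z ^ n) = n • ordAt τ f :=
  analyticOrderAt_pow (analyticAt_comp_ofComplex hf τ) n

theorem ordAt_eq_zero {f : ℍ → ℂ} (hf : MDiff f) (τ : ℍ) : ordAt τ f = 0 ↔ f τ ≠ 0 := by
  rw [ordAt, (analyticAt_comp_ofComplex hf τ).analyticOrderAt_eq_zero, ofComplex_apply]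

theorem ordAt_ne_top {f : ℍ → ℂ} (hf : MDiff f) (τ τ' : ℍ) (h : f τ' ≠ 0) :
    ordAt τ f ≠ ⊤ := by
  have hpre : IsPreconnected upperHalfPlaneSet := (convex_halfSpace_im_gt 0).isPreconnected
  refine (analyticOnNhd_comp_ofComplex hf).analyticOrderAt_ne_top_of_isPreconnected hpre
    τ'.im_pos τ.im_pos ?_
  have : ordAt τ' f = 0 := (ordAt_eq_zero hf τ').mpr h
  rw [ordAt] at this
  rw [this]
  simp

theorem ordAt_const_mul {f : ℍ → ℂ} (hf : MDiff f) {c : ℂ} (hc : c ≠ 0) (τ : ℍ) :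
    ordAt τ (fun z => c * f z) = ordAt τ f := by
  have h := ordAt_mul (f := fun _ => c) mdifferentiable_const hf τ
  rw [h, (ordAt_eq_zero mdifferentiable_const τ).mpr hc, zero_add]

theorem ordAt_D {f : ℍ → ℂ} (hf : MDiff f) (τ : ℍ) :
    ordAt τ (D f) + 1 = ordAt τ (fun z => f z - f τ) := by
  have h := (analyticAt_comp_ofComplex hf τ).analyticOrderAt_deriv_add_one
  rw [ofComplex_apply] at h
  have hpi : (2 * π * Complex.I : ℂ)⁻¹ ≠ 0 := by
    simp [Real.pi_ne_zero]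
  have h1 : ordAt τ (D f) = analyticOrderAt (deriv (fun z : ℂ => f (ofComplex z))) (τ : ℂ) := by
    have hev : (fun z : ℂ => D f (ofComplex z)) =ᶠ[𝓝 (τ : ℂ)]
        (fun _ => (2 * π * Complex.I : ℂ)⁻¹) * (deriv (fun z : ℂ => f (ofComplex z))) := by
      filter_upwards [isOpen_upperHalfPlaneSet.mem_nhds τ.im_pos] with w hw
      simp only [normalizedDerivOfComplex, ofComplex_apply_of_im_pos hw, Pi.mul_apply]
      rfl
    rw [ordAt, analyticOrderAt_congr hev, analyticOrderAt_mul analyticAt_const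
      (analyticAt_comp_ofComplex hf τ).deriv, (analyticAt_const).analyticOrderAt_eq_zero.mpr hpi,
      zero_add]
  rw [h1, h]
  rfl

end JOrd

/-! ### Values and orders of `j` -/

theorem jfun_I : jfun UpperHalfPlane.I = 1728 := by
  have h := jfun_sub_mul_disc UpperHalfPlane.I
  rw [E₆_I] at h
  have h2 : jfun UpperHalfPlane.I - 1728 = 0 := by
    rcases mul_eq_zero.mp (h.trans (by norm_num)) with h3 | h3
    · exact h3
    · exact absurd h3 (discriminant_ne_zero _)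
  linear_combination h2

theorem jfun_rho : jfun rho = 0 := by
  rw [jfun, E₄_rho]
  simp

namespace JOrd

theorem E₄_ne_zero_of_jfun {τ : ℍ} (h : jfun τ ≠ 0) : E₄ τ ≠ 0 := by
  intro h0
  apply h
  rw [jfun, h0]
  simp

theorem E₆_ne_zero_of_jfun {τ : ℍ} (h : jfun τ ≠ 1728) : E₆ τ ≠ 0 := by
  intro h0
  have h1 := jfun_sub_mul_disc τ
  rw [h0] at h1
  rcases mul_eq_zero.mp (h1.trans (by norm_num)) with h3 | h3
  · exact h (by linear_combination h3)
  · exact absurd h3 (discriminant_ne_zero _)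

theorem E₄_I_ne_zero : E₄ UpperHalfPlane.I ≠ 0 :=
  E₄_ne_zero_of_jfun (by rw [jfun_I]; norm_num)

theorem E₆_rho_ne_zero : E₆ rho ≠ 0 :=
  E₆_ne_zero_of_jfun (by rw [jfun_rho]; norm_num)

theorem mdiff_D_jfun : MDiff (D jfun) := normalizedDerivOfComplex_mdifferentiable mdiff_jfun'

theorem ordAt_disc (τ : ℍ) : ordAt τ (discriminant : ℍ → ℂ) = 0 :=
  (ordAt_eq_zero mdiff_disc τ).mpr (discriminant_ne_zero τ)

/-- `D j * Δ = c * E₄ ^ 2 * E₆` with `c ≠ 0`. -/
theorem exists_D_jfun_eq' : ∃ c : ℂ, c ≠ 0 ∧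
    ∀ z : ℍ, D jfun z * discriminant z = c * (E₄ z ^ 2 * E₆ z) := by
  obtain ⟨c, hc⟩ := exists_D_jfun_eq
  refine ⟨c, ?_, hc⟩
  rintro rfl
  have h0 : D jfun = fun _ => 0 := by
    funext z
    have := hc z
    rw [zero_mul] at this
    rcases mul_eq_zero.mp this with h3 | h3
    · exact h3
    · exact absurd h3 (discriminant_ne_zero _)
  have h1 := ordAt_D mdiff_jfun' rho
  have h2 : ordAt rho (D jfun) = ⊤ := by
    rw [h0, ordAt, analyticOrderAt_eq_top]
    exact Eventually.of_forall fun _ => rfl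
  rw [h2, jfun_rho] at h1
  simp only [sub_zero] at h1
  have h3 : ordAt rho jfun ≠ ⊤ :=
    ordAt_ne_top mdiff_jfun' rho UpperHalfPlane.I (by rw [jfun_I]; norm_num)
  exact h3 (by rw [← h1]; simp)

theorem ordAt_D_jfun (τ : ℍ) :
    ordAt τ (D jfun) = 2 • ordAt τ (E₄ : ℍ → ℂ) + ordAt τ (E₆ : ℍ → ℂ) := by
  obtain ⟨c, hc0, hc⟩ := exists_D_jfun_eq'
  have h1 := ordAt_mul mdiff_D_jfun mdiff_disc τ
  rw [ordAt_disc, add_zero] at h1
  have hp : MDiff (fun z : ℍ => E₄ z ^ 2) := mdiff_E₄.pow 2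
  have hm : MDiff (fun z : ℍ => E₄ z ^ 2 * E₆ z) := hp.mul mdiff_E₆
  rw [← h1, funext hc, ordAt_const_mul hm hc0, ordAt_mul hp mdiff_E₆, ordAt_pow mdiff_E₄]

end JOrd

theorem ordAt_jfun_generic (τ₀ : ℍ) (h0 : jfun τ₀ ≠ 0) (h1 : jfun τ₀ ≠ 1728) :
    ordAt τ₀ (fun τ => jfun τ - jfun τ₀) = 1 := by
  rw [← ordAt_D mdiff_jfun', ordAt_D_jfun,
    (ordAt_eq_zero mdiff_E₄ τ₀).mpr (E₄_ne_zero_of_jfun h0),
    (ordAt_eq_zero mdiff_E₆ τ₀).mpr (E₆_ne_zero_of_jfun h1)]
  simp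

theorem ordAt_jfun_I : ordAt UpperHalfPlane.I (fun τ => jfun τ - 1728) = 2 := by
  have hD := ordAt_D mdiff_jfun' UpperHalfPlane.I
  rw [jfun_I, ordAt_D_jfun, (ordAt_eq_zero mdiff_E₄ _).mpr E₄_I_ne_zero] at hD
  have h1 := ordAt_mul (f := fun τ => jfun τ - 1728) (mdiff_jfun'.sub mdifferentiable_const)
    mdiff_disc UpperHalfPlane.I
  rw [ordAt_disc, add_zero, funext jfun_sub_mul_disc, ordAt_pow mdiff_E₆] at h1
  have htop : ordAt UpperHalfPlane.I (E₆ : ℍ → ℂ) ≠ ⊤ :=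
    ordAt_ne_top mdiff_E₆ _ rho E₆_rho_ne_zero
  rw [← h1] at hD ⊢
  obtain ⟨n, hn⟩ := ENat.ne_top_iff_exists.mp htop
  rw [← hn] at hD ⊢
  have : n = 1 := by
    have h2 : ((2 • 0 + n + 1 : ℕ) : ℕ∞) = ((2 • n : ℕ) : ℕ∞) := by
      push_cast
      exact hD
    have := Nat.cast_injective h2
    simp only [smul_eq_mul] at this
    omega
  rw [this]
  rfl

theorem ordAt_jfun_rho : ordAt rho jfun = 3 := by
  have hD := ordAt_D mdiff_jfun' rho
  rw [jfun_rho, ordAt_D_jfun, (ordAt_eq_zero mdiff_E₆ _).mpr E₆_rho_ne_zero] at hD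
  simp only [sub_zero] at hD
  have h1 := ordAt_mul mdiff_jfun' mdiff_disc rho
  rw [ordAt_disc, add_zero, funext jfun_mul_disc, ordAt_pow mdiff_E₄] at h1
  have htop : ordAt rho (E₄ : ℍ → ℂ) ≠ ⊤ :=
    ordAt_ne_top mdiff_E₄ _ UpperHalfPlane.I E₄_I_ne_zero
  have hj : ordAt rho (fun z => jfun z) = ordAt rho jfun := rfl
  rw [hj] at hD
  rw [← h1] at hD ⊢
  obtain ⟨n, hn⟩ := ENat.ne_top_iff_exists.mp htop
  rw [← hn] at hD ⊢
  have : n = 1 := by
    have h2 : ((2 • n + 0 + 1 : ℕ) : ℕ∞) = ((3 • n : ℕ) : ℕ∞) := by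
      push_cast
      exact hD
    have := Nat.cast_injective h2
    simp only [smul_eq_mul] at this
    omega
  rw [this]
  rfl

end Fermat.Agent.S24
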