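/-
S24 analytic part: the `j`-function is surjective.  Owner helper115.
-/
import Fermat.Agent.S24.Analytic.Defs

set_option autoImplicit false

namespace Fermat.Agent.S24

open UpperHalfPlane ModularForm EisensteinSeries Complex Filter Topology
open scoped MatrixGroups Real Manifold

/-- A level one modular form tends to its constant term at `i∞`. -/
theorem tendsto_atImInfty_levelOne {k : ℤ} (f : ModularForm 𝒮ℒ k) :
    Tendsto f atImInfty (𝓝 ((qExpansion 1 f).coeff 0)) := by
  have hper := SlashInvariantFormClass.periodic_comp_ofComplex f one_mem_strictPeriods_SL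
  have hbd := ModularFormClass.bdd_at_infty f
  have hhol := ModularFormClass.holo f
  have han := analyticAt_cuspFunction_zero one_pos hper hhol hbd
  rw [qExpansion_coeff_zero one_pos han hper]
  have h1 := exp_decay_sub_atImInfty one_pos hper hhol hbd
  have h2 : Tendsto (fun τ : ℍ => Real.exp (-2 * π * τ.im / 1)) atImInfty (𝓝 0) := by
    have : Tendsto (fun τ : ℍ => -2 * π * τ.im / 1) atImInfty atBot := by
      simp only [div_one]
      exact Tendsto.const_mul_atTop_of_neg (by nlinarith [Real.pi_pos]) tendsto_comap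
    exact Real.tendsto_exp_atBot.comp this
  have h3 := h1.trans_tendsto h2
  have h4 := h3.add_const (valueAtInfty f)
  simpa using h4

theorem tendsto_E₄_atImInfty : Tendsto E₄ atImInfty (𝓝 1) := by
  have := tendsto_atImInfty_levelOne E₄
  rwa [E_qExpansion_coeff_zero (by norm_num) ⟨2, rfl⟩] at this

/-- The level one form `E₄³ - c Δ` of weight `12`. -/
noncomputable def jAux (c : ℂ) : ModularForm 𝒮ℒ 12 :=
  ModularForm.mcast (by decide) (E₄.pow 3) - c • (CuspForm.discriminant : ModularForm 𝒮ℒ 12)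

theorem jAux_apply (c : ℂ) (z : ℍ) : jAux c z = E₄ z ^ 3 - c * discriminant z := by
  simp [jAux]
  rfl

theorem tendsto_jAux (c : ℂ) : Tendsto (jAux c) atImInfty (𝓝 1) := by
  have h1 : Tendsto (fun z : ℍ => E₄ z ^ 3 - c * discriminant z) atImInfty
      (𝓝 (1 ^ 3 - c * 0)) :=
    (tendsto_E₄_atImInfty.pow 3).sub (discriminant_isZeroAtImInfty.const_mul c)
  simp only [one_pow, mul_zero, sub_zero] at h1
  exact h1.congr fun z => (jAux_apply c z).symm

theorem inv_jAux_slash (c : ℂ) (γ : SL(2, ℤ)) :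
    (fun z ↦ 1 / jAux c z) ∣[(-12 : ℤ)] γ = fun z ↦ 1 / jAux c z := by
  have hγ : (γ : GL (Fin 2) ℝ) ∈ 𝒮ℒ := ⟨γ, rfl⟩
  change (⇑(1 : ModularForm 𝒮ℒ 0) / ⇑(jAux c)) ∣[(0 - 12 : ℤ)] γ =
    ⇑(1 : ModularForm 𝒮ℒ 0) / ⇑(jAux c)
  simp_rw [div_slash_SL2, SL_slash, SlashInvariantForm.slash_action_eqn _ _ hγ]

theorem exists_jAux_eq_zero (c : ℂ) : ∃ z : ℍ, jAux c z = 0 := by
  by_contra hne
  push Not at hne
  let h : ModularForm 𝒮ℒ (-12) :=
    { toFun z := 1 / jAux c z
      slash_action_eq' := fun _ ⟨γ, hγ⟩ ↦ hγ ▸ inv_jAux_slash c γ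
      holo' := (1 : ModularForm 𝒮ℒ 0).holo'.div (jAux c).holo' hne
      bdd_at_cusps' {d} hd := by
        rw [Subgroup.IsArithmetic.isCusp_iff_isCusp_SL2Z] at hd
        rw [OnePoint.isBoundedAt_iff_forall_SL2Z hd]
        intro γ _
        rw [inv_jAux_slash c γ, IsBoundedAtImInfty, BoundedAtFilter]
        have : Tendsto (fun z ↦ 1 / jAux c z) atImInfty (𝓝 (1 / 1)) :=
          tendsto_const_nhds.div (tendsto_jAux c) one_ne_zero
        exact this.isBigO_one ℝ }
  have h0 := ModularFormClass.levelOne_neg_weight_eq_zero (by norm_num) h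
  have h1 : (1 : ℂ) / jAux c I = 0 := congrFun h0 I
  exact one_div_ne_zero (hne I) h1

theorem jfun_surjective : Function.Surjective jfun := by
  intro c
  obtain ⟨z, hz⟩ := exists_jAux_eq_zero c
  refine ⟨z, ?_⟩
  rw [jAux_apply] at hz
  rw [jfun, div_eq_iff (discriminant_ne_zero z)]
  linear_combination hz

end Fermat.Agent.S24
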